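import Fermat.Agent.GAL.KL.Main
import Fermat.Agent.GAL.INJ.LevelDescent
import Fermat.Agent.GAL.Igusa.Final

/-!
# GAL-KL : `KLNeat` and `KLAll`, unconditionally.
-/

set_option autoImplicit false

namespace Fermat.Agent.GAL.KL

open AlgebraicCurve ModularCurve Fermat.Agent.S24 Fermat.Agent.GAL.Hecke

/-- **KL for neat levels**, unconditional. -/
theorem klNeat' : KLNeat := klNeat Igusa.cuspUpper Igusa.cuspLower

/-- **KL at all levels**, unconditional: raise the level by `4` or `9`, then descend. -/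
theorem klAll : KLAll := by
  intro M hM0 A m hM hm
  haveI : NeZero M := ⟨hM0⟩
  obtain ⟨c, hc0, hcn, hc⟩ : ∃ c : ℕ, c ≠ 0 ∧ (4 ∣ c ∨ 9 ∣ c) ∧
      ((c : ℕ) : IsLocalRing.ResidueField A) ≠ 0 := by
    by_cases h4 : ((4 : ℕ) : IsLocalRing.ResidueField A) = 0
    · refine ⟨9, by norm_num, Or.inr dvd_rfl, fun h9 => ?_⟩
      have h1 : ((9 : ℕ) : IsLocalRing.ResidueField A) =
          2 * ((4 : ℕ) : IsLocalRing.ResidueField A) + 1 := by
        push_cast; norm_num
      rw [h4, mul_zero, zero_add] at h1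
      exact one_ne_zero (h1.symm.trans h9)
    · exact ⟨4, by norm_num, Or.inl dvd_rfl, h4⟩
  haveI : NeZero (M * c) := ⟨Nat.mul_ne_zero hM0 hc0⟩
  have hMc : ((M * c : ℕ) : IsLocalRing.ResidueField A) ≠ 0 := by
    rw [Nat.cast_mul]; exact mul_ne_zero hM hc
  have hneat : 4 ∣ M * c ∨ 9 ∣ M * c := hcn.imp (fun h => h.mul_left M) (fun h => h.mul_left M)
  exact INJ.hecke_INJ_descent A M (M * c) (Dvd.intro c rfl) hMc m hm
    (klNeat' (M * c) (Nat.mul_ne_zero hM0 hc0) hneat A m hMc hm)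

end Fermat.Agent.GAL.KL
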