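import Fermat.Agent.GAL.KL.Statement
import Fermat.Agent.GAL.Hecke.Normalise
import Fermat.Agent.GAL.RED.Modular
import Fermat.Agent.GAL.Igusa.Main
import Fermat.Agent.GAL.INJ.ResAlgClosed

set_option autoImplicit false

/-!
# GAL-KL : route A glue.  `RED.inj_modular` + `Igusa.genusFF_eq` ⟹ `KLNeat`.
-/

noncomputable section

namespace Fermat.Agent.GAL.KL

open AlgebraicCurve ModularCurve Fermat.Agent.S24 Fermat.Agent.GAL.Hecke Fermat.Agent.Lib.RR

/-- `INJ` for an intermediate field equal to `modularFunctionFieldFullC Kbar M`. -/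
theorem inj_aux (M : ℕ) [NeZero M] (A : ValuationSubring Kbar)
    (E' : IntermediateField Kbar (LaurentSeries Kbar)) (hE : E' = modularFunctionFieldFullC Kbar M)
    [Lib.RR.IsFF Kbar ↥(modularFunctionFieldFullC Kbar M)]
    [Lib.RR.IsFF (IsLocalRing.ResidueField ↥A) ↥(modularFunctionFieldFullC (IsLocalRing.ResidueField ↥A) M)]
    (hM : ((M : ℕ) : IsLocalRing.ResidueField ↥A) ≠ 0)
    (hg : genusFF Kbar ↥(modularFunctionFieldFullC Kbar M) =
      genusFF (IsLocalRing.ResidueField ↥A)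
        ↥(modularFunctionFieldFullC (IsLocalRing.ResidueField ↥A) M))
    (m : ℕ) (hm : (m : IsLocalRing.ResidueField ↥A) ≠ 0)
    (P Q : LaurentSeries A) (hP : incl A P ∈ E') (hQ : incl A Q ∈ E')
    (hPQ : red A P = red A Q) (hQ0 : red A Q ≠ 0)
    (u : (↥E')ˣ) (hu : ((u : ↥E') : LaurentSeries Kbar) * incl A Q = incl A P)
    (hk : u ∈ kummerUnits Kbar ↥E' m) : ∃ y : (↥E')ˣ, y ^ m = u := by
  subst hE
  haveI := Fermat.Agent.GAL.INJ.isAlgClosed_residueField A
  have hQne : incl A Q ≠ 0 := by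
    intro h
    have : Q = 0 := incl_injective A (by rw [h, map_zero])
    exact hQ0 (by rw [this, map_zero])
  have huPQ : (u : ↥(modularFunctionFieldFullC Kbar M)) =
      (⟨incl A P, hP⟩ : ↥(modularFunctionFieldFullC Kbar M)) / ⟨incl A Q, hQ⟩ := by
    rw [eq_div_iff (fun h => hQne (congrArg Subtype.val h))]
    exact Subtype.ext hu
  obtain ⟨w, hw⟩ := RED.inj_modular A M hM hg m hm ⟨incl A P, hP⟩ ⟨incl A Q, hQ⟩ P Q rfl rfl
    hQ0 hPQ (fun v => by rw [← huPQ]; exact hk v)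
  have hm0 : m ≠ 0 := by
    rintro rfl
    exact hm (by simp)
  have hw0 : w ≠ 0 := by
    rintro rfl
    rw [zero_pow hm0, ← huPQ] at hw
    exact u.ne_zero hw
  refine ⟨Units.mk0 w hw0, ?_⟩
  apply Units.ext
  rw [Units.val_pow_eq_pow_val, Units.val_mk0, ← hw, huPQ]

/-- **KL for neat levels** (route A), modulo the two cusp counts of GAL-IGUSA block E. -/
theorem klNeat (hU : Igusa.CuspUpper) (hL : Igusa.CuspLower) : KLNeat := by
  intro M hM0 hneat A m hM hm P Q hP hQ hPQ hQ0 u hu hk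
  haveI : NeZero M := ⟨hM0⟩
  have hMK : ((M : ℕ) : AlgebraicClosure ℚ) ≠ 0 := Nat.cast_ne_zero.mpr hM0
  haveI := Fermat.Agent.GAL.INJ.isAlgClosed_residueField A
  haveI := Igusa.isFF_E (AlgebraicClosure ℚ) M hMK
  haveI := Igusa.isFF_E (IsLocalRing.ResidueField ↥A) M hM
  exact inj_aux M A _ (modularFunctionFieldBar_eq_fullC M) hM
    (Igusa.genusFF_eq hU hL A M hM hneat).symm m hm P Q hP hQ hPQ hQ0 u hu hk

end Fermat.Agent.GAL.KL
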