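import Fermat.Agent.GAL.Hecke.Defs

set_option autoImplicit false

/-!
# GAL-KL : THE statement (injectivity of reduction on the Kummer model)

The statement consumed by everybody is `Fermat.Agent.GAL.Hecke.INJ M m A` (file `GAL/Hecke/Defs.lean`):

  `P, Q ∈ A((q))`, both in the function field of level `M` over `Qbar`, `red P = red Q ≠ 0`,
  `u = P / Q` a Kummer unit (`m ∣ div u`)  ⟹  `u` is an `m`-th power.

This file only fixes names for the quantified versions.  All routes (KL-A Deuring reduction plus genus
equality, KL-B, KL-C level descent) must produce one of the `Prop`s below.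
-/

noncomputable section

namespace Fermat.Agent.GAL.KL

open AlgebraicCurve ModularCurve Fermat.Agent.S24 Fermat.Agent.GAL.Hecke

/-- `KL` at level `M` : for every valuation subring `A` of `Qbar` and every exponent `m` such that `M` and
`m` are invertible in the residue field. -/
def KLAt (M : ℕ) : Prop :=
  ∀ (A : ValuationSubring Kbar) (m : ℕ), ((M : ℕ) : IsLocalRing.ResidueField A) ≠ 0 →
    ((m : ℕ) : IsLocalRing.ResidueField A) ≠ 0 → INJ M m A

/-- `KL` for the neat levels (`4 ∣ M` or `9 ∣ M`); this is what S29, S30, S42 consume. -/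
def KLNeat : Prop := ∀ M : ℕ, M ≠ 0 → (4 ∣ M ∨ 9 ∣ M) → KLAt M

/-- `KL` at all levels (what S18 consumes; follows from `KLNeat` by level descent). -/
def KLAll : Prop := ∀ M : ℕ, M ≠ 0 → KLAt M

theorem KLAll.neat (h : KLAll) : KLNeat := fun M hM _ => h M hM

end Fermat.Agent.GAL.KL
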